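import Fermat.Agent.A2.H12.CountPur

/-!
# RIBET wall at `p`, leaf W-ALGP (route G at `m = p`): COUNT from WILD PURITY (helper12)

Wild form of `A2/H12/CountPur.lean`.  `p` is the residue characteristic, `ζ ∈ R` a primitive
`p`-th root of unity, `lam ∈ R` with `ζ ^ j - 1 = lam · unit` for `ζ ^ j ≠ 1` (e.g. `lam = ζ - 1`)
and `p = lam ^ (p - 1) · u`.

* `add_mul_pow_prime_h12` : `(b + lam t) ^ p = b ^ p + lam ^ p (t ^ p + Σ …)`.
* `isIntegral_of_add_mul_pow_h12` : if `(b + lam t) ^ p = b ^ p + lam ^ p a` then `t` is integral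
  (Kummer → Artin–Schreier).
* `deck_eq_one_of_wildPure` : **wild inertia lemma**.  A deck transformation `σ` carrying a sheet
  `W` through the closed point `𝔫` to a sheet `W'` through `𝔫` is trivial, if `W` maps onto its
  component (SURJ) and every Kummer generator is WILDLY PURE at `𝔫`:
  `g e ^ p = b ^ p + lam ^ p a`, `a, b` in the chart of `F`, `b ∉ 𝔫`.
* `countAt_of_wildPure_chart`, `countConclusion_of_wildPure` : the conclusion
  `A2.H12.CountConclusion L w x` of leaf COUNT (hypothesis `hCount` of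
  `Ribet.H883.algG_core_wild`).
-/

set_option autoImplicit false

namespace Fermat.Agent.Ribet.H12

open Fermat.Agent.A2
open Fermat.Agent.A2.H12
open Fermat.Agent.S18.H138 (chart)
open Finset Polynomial

section Binomial

/-- `(b + lam t) ^ p = b ^ p + lam ^ p (t ^ p + Σ_{1 ≤ k < p} (C(p,k)/p) u lam ^ (k-1) b ^ (p-k) t ^ k)`
if `p = lam ^ (p - 1) u` (`p = n + 1` prime). -/
theorem add_mul_pow_prime_h12 {A : Type*} [CommRing A] (n : ℕ) (hp : (n + 1).Prime)
    (b lam t u : A) (h : ((n + 1 : ℕ) : A) = lam ^ n * u) :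
    (b + lam * t) ^ (n + 1) = b ^ (n + 1) + lam ^ (n + 1) *
      (t ^ (n + 1) + ∑ m ∈ range n,
        (((n + 1).choose (m + 1) / (n + 1) : ℕ) : A) * u * lam ^ m * b ^ (n - m) * t ^ (m + 1)) := by
  rw [add_comm b, add_pow, Finset.sum_range_succ, Finset.sum_range_succ']
  simp only [pow_zero, Nat.sub_zero, Nat.choose_zero_right, Nat.cast_one, mul_one, one_mul,
    Nat.sub_self, Nat.choose_self]
  rw [mul_add, Finset.mul_sum]
  have hterm : ∀ m ∈ range n, (lam * t) ^ (m + 1) * b ^ (n + 1 - (m + 1)) *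
      (((n + 1).choose (m + 1) : ℕ) : A) =
      lam ^ (n + 1) * ((((n + 1).choose (m + 1) / (n + 1) : ℕ) : A) * u * lam ^ m *
        b ^ (n - m) * t ^ (m + 1)) := by
    intro m hm
    rw [Finset.mem_range] at hm
    have hdvd : (n + 1) ∣ (n + 1).choose (m + 1) :=
      hp.dvd_choose_self (Nat.succ_ne_zero m) (by omega)
    have hc : (((n + 1).choose (m + 1) : ℕ) : A) =
        ((n + 1 : ℕ) : A) * (((n + 1).choose (m + 1) / (n + 1) : ℕ) : A) := by
      rw [← Nat.cast_mul, Nat.mul_div_cancel' hdvd]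
    rw [hc, h, Nat.add_sub_add_right]
    ring
  rw [Finset.sum_congr rfl hterm]
  ring

/-- **Kummer → Artin–Schreier.**  If `(b + lam t) ^ p = b ^ p + lam ^ p a` with `p = lam^(p-1) u`,
`lam ≠ 0`, then `t` is integral over `A`. -/
theorem isIntegral_of_add_mul_pow_h12 {A : Type*} [CommRing A] {L : Type*} [Field L] [Algebra A L]
    (n : ℕ) (hp : (n + 1).Prime) (b lam u a : A) (h : ((n + 1 : ℕ) : A) = lam ^ n * u)
    (hlam0 : algebraMap A L lam ≠ 0) (t : L)
    (ht : (algebraMap A L b + algebraMap A L lam * t) ^ (n + 1) =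
      algebraMap A L (b ^ (n + 1) + lam ^ (n + 1) * a)) : IsIntegral A t := by
  -- the coefficients
  let coef : Fin n → A := fun m =>
    (((n + 1).choose ((m : ℕ) + 1) / (n + 1) : ℕ) : A) * u * lam ^ (m : ℕ) * b ^ (n - (m : ℕ))
  let f : Fin (n + 1) → A := Fin.cons (-a) coef
  refine ⟨X ^ (n + 1) + ∑ i : Fin (n + 1), C (f i) * X ^ (i : ℕ),
    monic_X_pow_add (degree_sum_fin_lt f), ?_⟩
  have hL : ((n + 1 : ℕ) : L) = algebraMap A L lam ^ n * algebraMap A L u := by
    rw [← map_pow, ← map_mul, ← h, map_natCast]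
  have key := add_mul_pow_prime_h12 n hp (algebraMap A L b) (algebraMap A L lam) t
    (algebraMap A L u) hL
  rw [ht, map_add, map_mul, map_pow, map_pow] at key
  have key2 : algebraMap A L lam ^ (n + 1) * (t ^ (n + 1) + ∑ m ∈ range n,
      (((n + 1).choose (m + 1) / (n + 1) : ℕ) : L) * algebraMap A L u *
        algebraMap A L lam ^ m * algebraMap A L b ^ (n - m) * t ^ (m + 1) - algebraMap A L a) =
      0 := by
    have := add_left_cancel key
    rw [mul_sub, ← this, sub_self]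
  have key3 := (mul_eq_zero.1 key2).resolve_left (pow_ne_zero _ hlam0)
  rw [eval₂_add, eval₂_pow, eval₂_X, eval₂_finsetSum, Fin.sum_univ_succ]
  simp only [eval₂_mul, eval₂_C, eval₂_pow, eval₂_X, f, Fin.cons_zero, Fin.cons_succ,
    Fin.val_zero, pow_zero, mul_one, Fin.val_succ, coef, map_neg, map_mul, map_pow,
    map_natCast, eval₂_neg, eval₂_natCast]
  rw [Finset.sum_range] at key3
  linear_combination key3

end Binomial

section Core

variable {R : Type*} [CommRing R] {F : Type*} [Field F] [Algebra R F]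
  {L : Type*} [Field L] [Algebra F L] [Algebra R L] [IsScalarTower R F L]

omit [IsScalarTower R F L] in
/-- A deck transformation carrying a sheet `W` through `𝔫` to a sheet `W'` through `𝔫` acts
trivially on `BL / 𝔫`, if `W` maps onto its component. -/
theorem deck_sub_mem_of_surj (B : Subalgebra R F) (BL : Subalgebra R L)
    (hBL : ∀ a ∈ B, algebraMap F L a ∈ BL) (𝔫 : Ideal BL)
    (W W' : ValuationSubring L) (σ : L ≃ₐ[F] L) (hσBL : ∀ c ∈ BL, σ c ∈ BL)
    (hσ : ∀ b, b ∈ W ↔ σ b ∈ W')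
    (hW : ∀ c : BL, (c : L) ∈ W.nonunits → c ∈ 𝔫)
    (hW' : ∀ c : BL, (c : L) ∈ W'.nonunits → c ∈ 𝔫)
    (hsurj : ∀ c ∈ BL, ∃ a ∈ B, c - algebraMap F L a ∈ W.nonunits) (c : BL) :
    (⟨σ c, hσBL c c.2⟩ : BL) - c ∈ 𝔫 := by
  have hσnu : ∀ b, b ∈ W.nonunits ↔ σ b ∈ W'.nonunits :=
    nonunits_iff_of_mem_iff (σ : L ≃+* L) W W' hσ
  obtain ⟨a, ha, hca⟩ := hsurj c c.2
  have h1 : (c - ⟨algebraMap F L a, hBL a ha⟩ : BL) ∈ 𝔫 := hW _ hca
  have h2 : ((⟨σ c, hσBL c c.2⟩ : BL) - ⟨algebraMap F L a, hBL a ha⟩ : BL) ∈ 𝔫 := by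
    apply hW'
    change σ c - algebraMap F L a ∈ W'.nonunits
    have := (hσnu _).1 hca
    rwa [map_sub, σ.commutes] at this
  have h3 : (⟨σ c, hσBL c c.2⟩ : BL) - c =
      ((⟨σ c, hσBL c c.2⟩ : BL) - ⟨algebraMap F L a, hBL a ha⟩) -
        (c - ⟨algebraMap F L a, hBL a ha⟩) := by ring
  rw [h3]
  exact 𝔫.sub_mem h2 h1

/-- **Wild inertia lemma.** -/
theorem deck_eq_one_of_wildPure (n' : ℕ) (hp : (n' + 1).Prime) (ζ lam u : R)
    (hζ : IsPrimitiveRoot (algebraMap R L ζ) (n' + 1))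
    (hlam0 : algebraMap R L lam ≠ 0)
    (hε : ∀ j : ℕ, ζ ^ j ≠ 1 → ∃ ε : R, IsUnit ε ∧ ζ ^ j - 1 = lam * ε)
    (hpl : ((n' + 1 : ℕ) : R) = lam ^ n' * u)
    (B : Subalgebra R F) (BL : Subalgebra R L)
    (hBL : ∀ a ∈ B, algebraMap F L a ∈ BL)
    (hclosed : ∀ t : L, IsIntegral BL t → t ∈ BL)
    (𝔫 : Ideal BL) (h𝔫 : 𝔫.IsPrime) (hlam𝔫 : algebraMap R BL lam ∈ 𝔫)
    (W W' : ValuationSubring L) (σ : L ≃ₐ[F] L) (hσBL : ∀ c ∈ BL, σ c ∈ BL)
    (hσ : ∀ b, b ∈ W ↔ σ b ∈ W')
    (hW : ∀ c : BL, (c : L) ∈ W.nonunits → c ∈ 𝔫)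
    (hW' : ∀ c : BL, (c : L) ∈ W'.nonunits → c ∈ 𝔫)
    (hsurj : ∀ c ∈ BL, ∃ a ∈ B, c - algebraMap F L a ∈ W.nonunits)
    {n : ℕ} (y : Fin n → L) (g : Fin n → F)
    (hy : ∀ i, y i ^ (n' + 1) = algebraMap F L (g i))
    (hgen : IntermediateField.adjoin F (Set.range y) = ⊤)
    (hpure : ∀ i, ∃ e : F, e ≠ 0 ∧ ∃ a b : B,
      (⟨algebraMap F L b, hBL b b.2⟩ : BL) ∉ 𝔫 ∧
      g i * e ^ (n' + 1) = (b : F) ^ (n' + 1) + algebraMap R F lam ^ (n' + 1) * (a : F)) :
    σ = 1 := by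
  have keyA := deck_sub_mem_of_surj B BL hBL 𝔫 W W' σ hσBL hσ hW hW' hsurj
  apply algEquiv_eq_one_of_fixes y hgen
  intro i
  obtain ⟨e, -, a, b, hb𝔫, hgab⟩ := hpure i
  set lamL : L := algebraMap R L lam with hlamL
  have hlamFL : algebraMap F L (algebraMap R F lam) = lamL := by
    rw [hlamL, ← IsScalarTower.algebraMap_apply R F L]
  set Y : L := y i * algebraMap F L e with hYdef
  have hY : Y ^ (n' + 1) =
      algebraMap F L b ^ (n' + 1) + lamL ^ (n' + 1) * algebraMap F L a := by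
    rw [hYdef, mul_pow, hy, ← map_pow, ← map_mul, hgab, map_add, map_mul, map_pow, map_pow,
      hlamFL]
  set t : L := (Y - algebraMap F L b) / lamL with htdef
  have hYt : algebraMap F L b + lamL * t = Y := by
    rw [htdef]
    field_simp
    ring
  -- `t` is integral
  have hint : IsIntegral BL t := by
    refine isIntegral_of_add_mul_pow_h12 (A := BL) n' hp ⟨algebraMap F L b, hBL b b.2⟩
      (algebraMap R BL lam) (algebraMap R BL u) ⟨algebraMap F L a, hBL a a.2⟩ ?_ ?_ t ?_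
    · rw [← map_pow, ← map_mul, ← hpl, map_natCast]
    · exact hlam0
    · change (algebraMap F L b + lamL * t) ^ (n' + 1) =
        algebraMap F L b ^ (n' + 1) + lamL ^ (n' + 1) * algebraMap F L a
      rw [hYt, hY]
  have htBL : t ∈ BL := hclosed t hint
  have hYB : (⟨algebraMap F L b, hBL b b.2⟩ : BL) + algebraMap R BL lam * ⟨t, htBL⟩ ∉ 𝔫 := by
    intro h
    apply hb𝔫
    have h2 : (⟨algebraMap F L b, hBL b b.2⟩ : BL) =
        (⟨algebraMap F L b, hBL b b.2⟩ + algebraMap R BL lam * ⟨t, htBL⟩) -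
          algebraMap R BL lam * ⟨t, htBL⟩ := by ring
    rw [h2]
    exact 𝔫.sub_mem h (𝔫.mul_mem_right _ hlam𝔫)
  have hY0 : Y ≠ 0 := by
    intro h0
    apply hYB
    have h1 : (⟨algebraMap F L b, hBL b b.2⟩ : BL) + algebraMap R BL lam * ⟨t, htBL⟩ = 0 := by
      apply Subtype.ext
      change algebraMap F L b + lamL * t = 0
      rw [hYt, h0]
    rw [h1]
    exact 𝔫.zero_mem
  have hy0 : y i ≠ 0 := left_ne_zero_of_mul hY0
  have hroot1 : (σ (y i) / y i) ^ (n' + 1) = 1 := by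
    rw [div_pow, ← map_pow, hy, σ.commutes, ← hy, div_self (pow_ne_zero _ hy0)]
  obtain ⟨j, -, hj⟩ := hζ.eq_pow_of_pow_eq_one hroot1
  have hσy : σ (y i) = algebraMap R L (ζ ^ j) * y i := by
    rw [map_pow, hj]
    field_simp
  by_cases h1 : ζ ^ j = 1
  · rw [hσy, h1, map_one, one_mul]
  · exfalso
    obtain ⟨ε, hεu, hεeq⟩ := hε j h1
    have hσY : σ Y = algebraMap R L (ζ ^ j) * Y := by
      rw [hYdef, map_mul, σ.commutes, hσy]
      ring
    have hσlam : σ lamL = lamL := by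
      rw [← hlamFL, σ.commutes]
    have hσt : σ t - t = algebraMap R L ε * Y := by
      rw [htdef, map_div₀, map_sub, hσY, σ.commutes, hσlam]
      have h5 : algebraMap R L (ζ ^ j) = 1 + lamL * algebraMap R L ε := by
        rw [hlamL, ← map_mul, ← hεeq, map_sub, map_one]
        ring
      rw [h5]
      field_simp
      ring
    have h2 := keyA ⟨t, htBL⟩
    have h3 : (⟨σ t, hσBL t htBL⟩ : BL) - ⟨t, htBL⟩ =
        algebraMap R BL ε *
          (⟨algebraMap F L b, hBL b b.2⟩ + algebraMap R BL lam * ⟨t, htBL⟩) := by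
      apply Subtype.ext
      change σ t - t = algebraMap R L ε * (algebraMap F L b + lamL * t)
      rw [hσt, hYt]
    rw [h3] at h2
    rcases h𝔫.mem_or_mem h2 with h4 | h4
    · exact h𝔫.ne_top (Ideal.eq_top_of_isUnit_mem _ h4 (hεu.map (algebraMap R BL)))
    · exact hYB h4

end Core

section Chart

universe u

variable {R : Type u} [CommRing R] {F : Type u} [Field F] [Algebra R F]
  {L : Type u} [Field L] [Algebra F L] [Algebra R L] [IsScalarTower R F L]

/-- **Wild purity datum at a closed point `n` of the chart `B`** (`p = m`): after multiplication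
by a `p`-th power, `g = b ^ p + lam ^ p a` with `a, b ∈ B`, `b ∉ n`
(i.e. `g e ^ p ∈ (B_n^×) ^ p · (1 + lam ^ p B_n)`). -/
def WildPureAt (B : Subalgebra R F) (n : Ideal B) (lam : R) (m : ℕ) (g : F) : Prop :=
  ∃ e : F, e ≠ 0 ∧ ∃ a b : B, b ∉ n ∧
    g * e ^ m = (b : F) ^ m + algebraMap R F lam ^ m * (a : F)

/-- Adapter: `g d ^ p ∈ 1 + lam ^ p B_n` (`Ribet.H495.AlgP.LocOneR B n (lam ^ p) (g * d ^ p)`, the
first component of `PureAtP`) is a wild purity datum. -/
theorem wildPureAt_of_locOne (B : Subalgebra R F) (n : Ideal B) (lam : R) (m : ℕ) (hm : 0 < m)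
    (g d : F) (hd : d ≠ 0)
    (h : Alg.LocOne B n (Ideal.span {algebraMap R B (lam ^ m)}) (g * d ^ m)) :
    WildPureAt B n lam m g := by
  obtain ⟨a, b, hb, hab, hgab⟩ := h
  obtain ⟨c, hc⟩ := Ideal.mem_span_singleton'.1 hab
  obtain ⟨k, rfl⟩ := Nat.exists_eq_succ_of_ne_zero hm.ne'
  have hb0 : (b : F) ≠ 0 := by
    intro h0
    apply hb
    have : b = 0 := Subtype.ext h0
    rw [this]
    exact n.zero_mem
  refine ⟨d * b, mul_ne_zero hd hb0, c * b ^ k, b, hb, ?_⟩
  have hc' : (c : F) * algebraMap R F lam ^ (k + 1) = (a : F) - (b : F) := by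
    have := congrArg (fun z : B => (z : F)) hc
    simpa using this
  simp only [Nat.succ_eq_add_one] at hgab hc' ⊢
  push_cast
  linear_combination ((b : F) ^ k) * hgab - ((b : F) ^ k) * hc'

/-- The chart of `L` is integrally closed in `L`. -/
theorem chart_closed_h12 (T : Set L) (t : L) (ht : IsIntegral (chart R T) t) : t ∈ chart R T := by
  rw [Fermat.Agent.S18.H138.mem_chart]
  have h : IsIntegral (integralClosure (Algebra.adjoin R T) L) t := ht
  exact isIntegral_trans (A := integralClosure (Algebra.adjoin R T) L) t h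

/-- The image of the chart of `F` lies in the chart of `L`. -/
theorem algebraMap_mem_chart_cover_h12 (t : F) {a : F} (ha : a ∈ chart R ({t} : Set F)) :
    algebraMap F L a ∈ chart R ({algebraMap F L t} : Set L) := by
  rw [Fermat.Agent.S18.H138.mem_chart] at ha ⊢
  have h2 : IsIntegral (Algebra.adjoin R ({t} : Set F)) (algebraMap F L a) :=
    ha.map (IsScalarTower.toAlgHom (Algebra.adjoin R ({t} : Set F)) F L)
  have h3 := Fermat.Agent.A2.H652.isIntegral_adjoin_image_of_isIntegral_adjoin ({t} : Set F) h2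
  rwa [Set.image_singleton] at h3

/-- **COUNT-W for one chart.** -/
theorem countAt_of_wildPure_chart (w : R) (x : F) (n' : ℕ) (hp : (n' + 1).Prime) (ζ lam u : R)
    (hζ : IsPrimitiveRoot (algebraMap R L ζ) (n' + 1))
    (hlam0 : algebraMap R L lam ≠ 0)
    (hε : ∀ j : ℕ, ζ ^ j ≠ 1 → ∃ ε : R, IsUnit ε ∧ ζ ^ j - 1 = lam * ε)
    (hpl : ((n' + 1 : ℕ) : R) = lam ^ n' * u)
    (hwlam : w ∣ lam)
    (S : SheetsConclusion L w x)
    (t : F) (B : Subalgebra R F)
    (hB : ∀ f : F, f ∈ B ↔ IsIntegral (Algebra.adjoin R ({t} : Set F)) f)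
    {n : ℕ} (y : Fin n → L) (g : Fin n → F)
    (hy : ∀ i, y i ^ (n' + 1) = algebraMap F L (g i))
    (hgen : IntermediateField.adjoin F (Set.range y) = ⊤)
    (hsurj : ∀ W : ValuationSubring L, IsSheet w (algebraMap F L x) W →
      ∀ c ∈ chart R ({algebraMap F L t} : Set L), ∃ a ∈ B, c - algebraMap F L a ∈ W.nonunits)
    (hpure : ∀ i, ∀ n : Ideal B, n.IsMaximal → algebraMap R B w ∈ n →
      WildPureAt B n lam (n' + 1) (g i)) :
    CountAt L w x ({algebraMap F L t} : Set L) := by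
  intro 𝔫 h𝔫 W W' hWs hW's hcol hW hW'
  obtain ⟨σ, hσ⟩ := S.trans W W' hWs hW's hcol
  have hBL : ∀ a ∈ B, algebraMap F L a ∈ chart R ({algebraMap F L t} : Set L) :=
    fun a ha => algebraMap_mem_chart_cover_h12 t ((hB a).1 ha)
  have hσBL : ∀ c ∈ chart R ({algebraMap F L t} : Set L),
      σ c ∈ chart R ({algebraMap F L t} : Set L) := by
    intro c hc
    refine chart_map_mem ((σ : L ≃+* L) : L →+* L) ?_ ?_ hc
    · intro r
      refine ⟨r, ?_⟩
      change σ (algebraMap R L r) = _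
      rw [IsScalarTower.algebraMap_apply R F L, σ.commutes]
    · intro t' ht'
      rw [Set.mem_singleton_iff] at ht'
      subst ht'
      change σ (algebraMap F L t) ∈ _
      rw [σ.commutes]
      exact Algebra.subset_adjoin rfl
  -- the inclusion of the charts
  let ι : B →+* chart R ({algebraMap F L t} : Set L) :=
    { toFun := fun a => ⟨algebraMap F L a, hBL a a.2⟩
      map_one' := Subtype.ext (map_one _)
      map_mul' := fun a b => Subtype.ext (map_mul _ _ _)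
      map_zero' := Subtype.ext (map_zero _)
      map_add' := fun a b => Subtype.ext (map_add _ _ _) }
  have hAB : Algebra.adjoin R ({t} : Set F) ≤ B := fun z hz =>
    (hB z).2 (isIntegral_algebraMap (R := Algebra.adjoin R ({t} : Set F)) (x := ⟨z, hz⟩))
  have hι : ι.IsIntegral := by
    intro c
    have hc : (c : L) ∈ chart R (algebraMap F L '' ({t} : Set F)) := by
      rw [Set.image_singleton]
      exact c.2
    obtain ⟨p, hp, hpc⟩ :=
      Fermat.Agent.A2.H652.isIntegral_adjoin_of_isIntegral_adjoin_image ({t} : Set F)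
        (Fermat.Agent.S18.H138.mem_chart.1 hc)
    refine ⟨p.map (Subalgebra.inclusion hAB).toRingHom, hp.map _, ?_⟩
    apply Subtype.ext
    rw [Polynomial.eval₂_map]
    have h1 := Polynomial.hom_eval₂ p (ι.comp (Subalgebra.inclusion hAB).toRingHom)
      (chart R ({algebraMap F L t} : Set L)).val.toRingHom c
    change (chart R ({algebraMap F L t} : Set L)).val.toRingHom _ = _
    rw [h1]
    exact hpc
  have hnmax : (𝔫.comap ι).IsMaximal :=
    Ideal.isMaximal_comap_of_isIntegral_of_isMaximal' ι hι 𝔫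
  have hw𝔫 : algebraMap R (chart R ({algebraMap F L t} : Set L)) w ∈ 𝔫 := by
    apply hW
    exact hWs.2.2.1
  have hwn : algebraMap R B w ∈ 𝔫.comap ι := by
    rw [Ideal.mem_comap]
    apply hW
    change algebraMap F L (algebraMap R F w) ∈ W.nonunits
    rw [← IsScalarTower.algebraMap_apply R F L]
    exact hWs.2.2.1
  have hlam𝔫 : algebraMap R (chart R ({algebraMap F L t} : Set L)) lam ∈ 𝔫 := by
    obtain ⟨c, rfl⟩ := hwlam
    rw [map_mul]
    exact 𝔫.mul_mem_right _ hw𝔫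
  have hσ1 : σ = 1 := by
    refine deck_eq_one_of_wildPure n' hp ζ lam u hζ hlam0 hε hpl B
      (chart R ({algebraMap F L t} : Set L)) hBL (chart_closed_h12 _) 𝔫 h𝔫.isPrime hlam𝔫 W W' σ
      hσBL hσ hW hW' (hsurj W hWs) y g hy hgen ?_
    intro i
    obtain ⟨e, he, a, b, hb, hab⟩ := hpure i (𝔫.comap ι) hnmax hwn
    exact ⟨e, he, a, b, hb, hab⟩
  ext b
  rw [hσ b, hσ1]
  rfl

/-- **Leaf COUNT-W (core).**  The conclusion `CountConclusion L w x` of leaf COUNT (hypothesis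
`hCount` of `Ribet.H883.algG_core_wild`) for a Kummer cover `L = F(g_i^{1/p})` of exponent
`p = n' + 1` the residue characteristic, from

* `SheetsConclusion L w x` (only transitivity is used),
* SURJ on both charts (the conclusion of `A2.H12.SurjLeaf`),
* wild purity of the generators at the closed points of the special fibre of both charts. -/
theorem countConclusion_of_wildPure (w : R) (x : F) (n' : ℕ) (hp : (n' + 1).Prime)
    (ζ lam u : R) (hζ : IsPrimitiveRoot (algebraMap R L ζ) (n' + 1))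
    (hlam0 : algebraMap R L lam ≠ 0)
    (hε : ∀ j : ℕ, ζ ^ j ≠ 1 → ∃ ε : R, IsUnit ε ∧ ζ ^ j - 1 = lam * ε)
    (hpl : ((n' + 1 : ℕ) : R) = lam ^ n' * u)
    (hwlam : w ∣ lam)
    (S : SheetsConclusion L w x)
    (Bf Bi : Subalgebra R F)
    (hBf : ∀ f : F, f ∈ Bf ↔ IsIntegral (Algebra.adjoin R ({x} : Set F)) f)
    (hBi : ∀ f : F, f ∈ Bi ↔ IsIntegral (Algebra.adjoin R ({x⁻¹} : Set F)) f)
    {n : ℕ} (y : Fin n → L) (g : Fin n → F)
    (hy : ∀ i, y i ^ (n' + 1) = algebraMap F L (g i))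
    (hgen : IntermediateField.adjoin F (Set.range y) = ⊤)
    (hsurj : ∀ W : ValuationSubring L, IsSheet w (algebraMap F L x) W →
      (∀ c ∈ chart R ({algebraMap F L x} : Set L),
        ∃ a ∈ Bf, c - algebraMap F L a ∈ W.nonunits) ∧
      (∀ c ∈ chart R ({(algebraMap F L x)⁻¹} : Set L),
        ∃ a ∈ Bi, c - algebraMap F L a ∈ W.nonunits))
    (hpuref : ∀ i, ∀ n : Ideal Bf, n.IsMaximal → algebraMap R Bf w ∈ n →
      WildPureAt Bf n lam (n' + 1) (g i))
    (hpurei : ∀ i, ∀ n : Ideal Bi, n.IsMaximal → algebraMap R Bi w ∈ n →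
      WildPureAt Bi n lam (n' + 1) (g i)) :
    CountConclusion L w x := by
  refine ⟨?_, ?_⟩
  · exact countAt_of_wildPure_chart w x n' hp ζ lam u hζ hlam0 hε hpl hwlam S x Bf hBf y g hy
      hgen (fun W hW => (hsurj W hW).1) hpuref
  · have h := countAt_of_wildPure_chart w x n' hp ζ lam u hζ hlam0 hε hpl hwlam S x⁻¹ Bi hBi y g
      hy hgen (fun W hW => by
        have := (hsurj W hW).2
        rwa [← map_inv₀] at this) hpurei
    rwa [map_inv₀] at h

end Chart

/-! ## The arithmetic of `lam = ζ - 1` -/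

section Lam

variable {R : Type*} [CommRing R] [IsDomain R]

/-- For a primitive `p`-th root of unity `ζ` (`p` prime) and `ζ ^ j ≠ 1`:
`ζ ^ j - 1 = (ζ - 1) · unit`. -/
theorem zeta_pow_sub_one_eq_h12 {p : ℕ} (hp : p.Prime) {ζ : R} (hζ : IsPrimitiveRoot ζ p)
    (j : ℕ) (hj : ζ ^ j ≠ 1) : ∃ ε : R, IsUnit ε ∧ ζ ^ j - 1 = (ζ - 1) * ε := by
  have hcop : j.Coprime p := by
    rw [Nat.coprime_comm, hp.coprime_iff_not_dvd]
    intro hdvd
    obtain ⟨k, rfl⟩ := hdvd
    exact hj (by rw [pow_mul, hζ.pow_eq_one, one_pow])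
  obtain ⟨ε, hε⟩ := hζ.associated_sub_one_pow_sub_one_of_coprime hcop
  exact ⟨ε, ε.isUnit, hε.symm⟩

/-- `p = (ζ - 1) ^ (p - 1) · unit` for a primitive `p`-th root of unity `ζ` of a domain. -/
theorem natCast_eq_sub_one_pow_mul_h12 {p : ℕ} (hp : p.Prime) {ζ : R} (hζ : IsPrimitiveRoot ζ p) :
    ∃ u : R, IsUnit u ∧ (p : R) = (ζ - 1) ^ (p - 1) * u := by
  classical
  have : Fact p.Prime := ⟨hp⟩
  have h1 : (p : R) = ∏ μ ∈ primitiveRoots p R, (1 - μ) := by
    have h2 := congrArg (Polynomial.eval 1)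
      (Polynomial.cyclotomic_eq_prod_X_sub_primitiveRoots (K := R) hζ)
    rw [Polynomial.eval_one_cyclotomic_prime] at h2
    rw [h2, Polynomial.eval_prod]
    simp
  have h3 : ∀ μ ∈ primitiveRoots p R, ∃ v : R, IsUnit v ∧ 1 - μ = (ζ - 1) * v := by
    intro μ hμ
    have hμ' : IsPrimitiveRoot μ p := (mem_primitiveRoots hp.pos).1 hμ
    have : NeZero p := ⟨hp.ne_zero⟩
    obtain ⟨j, -, rfl⟩ := hζ.eq_pow_of_pow_eq_one hμ'.pow_eq_one
    have hj : ζ ^ j ≠ 1 := hμ'.ne_one hp.one_lt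
    obtain ⟨ε, hε, hεeq⟩ := zeta_pow_sub_one_eq_h12 hp hζ j hj
    refine ⟨-ε, hε.neg, ?_⟩
    rw [mul_neg, ← hεeq]
    ring
  choose! v hv using h3
  refine ⟨∏ μ ∈ primitiveRoots p R, v μ, ?_, ?_⟩
  · refine Finset.prod_induction v IsUnit (fun a b ha hb => ha.mul hb) isUnit_one ?_
    intro μ hμ
    exact (hv μ hμ).1
  · rw [h1, Finset.prod_congr rfl (fun μ hμ => (hv μ hμ).2), Finset.prod_mul_distrib,
      Finset.prod_const, hζ.card_primitiveRoots, Nat.totient_prime hp]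

end Lam

end Fermat.Agent.Ribet.H12
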